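import Fermat.Agent.DensityHJ.Main
import Mathlib.Data.Int.Interval
import Mathlib.Data.Fintype.Pi
import Mathlib.Analysis.SpecificLimits.Basic
import Mathlib.Order.LiminfLimsup

/-!
# Szemerédi's theorem from the density Hales–Jewett theorem

A line in `F ^ n` goes to a homothetic copy of `F` under `x ↦ s + ∑ x i`; an averaging over the
shift `s` turns a dense subset of a box into a dense subset of `F ^ n`.
-/

namespace FA.Szemeredi

open Combinatorics Finset Filter Topology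

/-- A set that is dense in a window containing its translates contains a homothetic copy. -/
theorem exists_homothetic_of_dense {G : Type*} [AddCommGroup G] [DecidableEq G] (F : Finset G)
    {δ : ℝ} (hδ : 0 < δ) :
    ∃ n : ℕ, ∀ A S : Finset G, S.Nonempty →
      (∀ x : Fin n → F, ∀ a ∈ A, a - ∑ i, (x i : G) ∈ S) → δ * #S ≤ #A →
      ∃ a : G, ∃ d : ℕ, 0 < d ∧ ∀ f ∈ F, a + d • f ∈ A := by
  classical
  obtain ⟨n, hn⟩ := DensityHJ.exists_line_of_dense.{_, 0} F hδ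
  refine ⟨n, fun A S hS hAS hA ↦ ?_⟩
  have hcount : ∀ x : Fin n → F, #(S.filter fun s ↦ s + ∑ i, (x i : G) ∈ A) = #A := fun x ↦
    card_bij (fun s _ ↦ s + ∑ i, (x i : G)) (fun s hs ↦ (mem_filter.1 hs).2)
      (fun s _ t _ h ↦ add_right_cancel h) fun a ha ↦
      ⟨a - ∑ i, (x i : G), mem_filter.2 ⟨hAS x a ha, by simpa using ha⟩, sub_add_cancel _ _⟩
  have htot : ∑ s ∈ S, (#{x : Fin n → F | s + ∑ i, (x i : G) ∈ A} : ℝ) =
      Fintype.card (Fin n → F) * #A := by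
    simp_rw [natCast_card_filter]
    rw [sum_comm]
    simp_rw [← natCast_card_filter, hcount, sum_const, card_univ, nsmul_eq_mul]
  obtain ⟨s, -, hs⟩ := exists_le_of_sum_le hS
    (f := fun _ ↦ δ * Fintype.card (Fin n → F))
    (g := fun s ↦ (#{x : Fin n → F | s + ∑ i, (x i : G) ∈ A} : ℝ)) (by
      rw [htot, sum_const, nsmul_eq_mul]
      calc (#S : ℝ) * (δ * Fintype.card (Fin n → F))
          = Fintype.card (Fin n → F) * (δ * #S) := by ring
        _ ≤ _ := by gcongr)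
  obtain ⟨l, hl⟩ := hn (Fin n) (Fintype.card_fin n).ge {x | s + ∑ i, (x i : G) ∈ A} (by
    rw [Set.ncard_eq_toFinset_card']
    simpa using hs)
  set T : Finset (Fin n) := univ.filter fun i ↦ l.idxFun i = none with hT
  refine ⟨s + ∑ i ∈ Tᶜ, (l.idxFun i).elim 0 (↑), #T, card_pos.2 ?_, fun f hf ↦ ?_⟩
  · exact l.proper.imp fun i hi ↦ by simp [hT, hi]
  · have h := hl ⟨f, hf⟩
    simp only [Set.mem_ofPred_eq] at h
    convert h using 1
    rw [← sum_compl_add_sum T, ← add_assoc]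
    congr 1
    · congr 1
      refine sum_congr rfl fun i hi ↦ ?_
      obtain ⟨y, hy⟩ := Option.ne_none_iff_exists'.1 (by simpa [hT] using hi)
      simp [hy]
    · rw [← sum_const]
      refine sum_congr rfl fun i hi ↦ ?_
      simp [(mem_filter.1 hi).2]

/-- **Multidimensional Szemerédi theorem.** -/
theorem exists_homothetic_in_box (r : ℕ) (F : Finset (Fin r → ℤ)) {δ : ℝ} (hδ : 0 < δ) :
    ∃ N₀ : ℕ, ∀ N : ℕ, N₀ ≤ N → ∀ A : Finset (Fin r → ℤ),
      (∀ a ∈ A, ∀ i, 0 ≤ a i ∧ a i < N) → δ * (N : ℝ) ^ r ≤ #A →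
      ∃ a : Fin r → ℤ, ∃ d : ℕ, 0 < d ∧ ∀ f ∈ F, a + d • f ∈ A := by
  classical
  obtain ⟨n, hn⟩ := exists_homothetic_of_dense F (half_pos hδ)
  set C : ℕ := ∑ f ∈ F, ∑ i, (f i).natAbs with hC
  set L : ℕ := n * C with hL
  have hlim : Tendsto (fun N : ℕ ↦ (1 + 2 * (L : ℝ) / N) ^ r) atTop (𝓝 1) := by
    simpa using ((tendsto_const_div_atTop_nhds_zero_nat (2 * (L : ℝ))).const_add 1).pow r
  obtain ⟨N₀, hN₀⟩ := eventually_atTop.1
    ((hlim.eventually_le_const (show (1 : ℝ) < 2 by norm_num)).and (eventually_ge_atTop 1))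
  refine ⟨N₀, fun N hN A hA hδA ↦ ?_⟩
  obtain ⟨hN2, hN1⟩ := hN₀ N hN
  set S : Finset (Fin r → ℤ) := Fintype.piFinset fun _ ↦ Ico (-(L : ℤ)) (N + L) with hSdef
  have hS : S.Nonempty := ⟨0, by
    simp only [hSdef, Fintype.mem_piFinset, mem_Ico, Pi.zero_apply]
    exact fun i ↦ ⟨by omega, by omega⟩⟩
  refine hn A S hS (fun x a ha ↦ ?_) ?_
  · simp only [hSdef, Fintype.mem_piFinset, mem_Ico, Pi.sub_apply, Finset.sum_apply]
    intro i
    have hb : |∑ j, ((x j : Fin r → ℤ) i)| ≤ (L : ℤ) := by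
      refine (abs_sum_le_sum_abs _ _).trans ?_
      calc ∑ j, |(x j : Fin r → ℤ) i| ≤ ∑ _j : Fin n, (C : ℤ) := sum_le_sum fun j _ ↦ by
            rw [Int.abs_eq_natAbs, Int.ofNat_le]
            exact (single_le_sum (f := fun i ↦ ((x j : Fin r → ℤ) i).natAbs)
              (fun _ _ ↦ Nat.zero_le _) (mem_univ i)).trans
              (single_le_sum (f := fun f : Fin r → ℤ ↦ ∑ i, (f i).natAbs)
                (fun _ _ ↦ Nat.zero_le _) (x j).2)
        _ = L := by simp [hL]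
    obtain ⟨h1, h2⟩ := abs_le.1 hb
    obtain ⟨h3, h4⟩ := hA a ha i
    exact ⟨by omega, by omega⟩
  · have hcard : (#S : ℝ) = (1 + 2 * (L : ℝ) / N) ^ r * (N : ℝ) ^ r := by
      have hN0 : (N : ℝ) ≠ 0 := by positivity
      rw [← mul_pow, add_mul, one_mul, div_mul_cancel₀ _ hN0]
      rw [hSdef, Fintype.card_piFinset, prod_const, card_univ, Fintype.card_fin, Int.card_Ico,
        Nat.cast_pow, show ((N : ℤ) + L - -(L : ℤ)) = ((N + 2 * L : ℕ) : ℤ) by push_cast; ring,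
        Int.toNat_natCast]
      push_cast
      ring
    calc δ / 2 * #S ≤ δ / 2 * (2 * (N : ℝ) ^ r) := by rw [hcard]; gcongr
      _ = δ * (N : ℝ) ^ r := by ring
      _ ≤ _ := hδA

/-- **Szemerédi's theorem.** -/
theorem exists_progression (k : ℕ) {δ : ℝ} (hδ : 0 < δ) :
    ∃ N₀ : ℕ, ∀ N : ℕ, N₀ ≤ N → ∀ A : Finset ℕ, A ⊆ range N → δ * N ≤ #A →
      ∃ a d : ℕ, 0 < d ∧ ∀ i < k, a + i * d ∈ A := by
  classical
  obtain ⟨N₀, hN₀⟩ := exists_homothetic_in_box 1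
    ((range k).image fun i : ℕ ↦ fun _ ↦ (i : ℤ)) hδ
  refine ⟨N₀, fun N hN A hA hδA ↦ ?_⟩
  rcases Nat.eq_zero_or_pos k with rfl | hk
  · exact ⟨0, 1, one_pos, fun i hi ↦ absurd hi (Nat.not_lt_zero i)⟩
  have hinj : Function.Injective fun a : ℕ ↦ fun _ : Fin 1 ↦ (a : ℤ) := fun a b h ↦ by
    simpa using congrFun h 0
  obtain ⟨a, d, hd, h⟩ := hN₀ N hN (A.image fun a : ℕ ↦ fun _ ↦ (a : ℤ)) (by
      intro a ha i
      obtain ⟨b, hb, rfl⟩ := mem_image.1 ha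
      exact ⟨Int.natCast_nonneg b, Int.ofNat_lt.2 (mem_range.1 (hA hb))⟩) (by
      rw [card_image_of_injective _ hinj, pow_one]
      exact hδA)
  have hmem : ∀ i < k, ∃ b ∈ A, (b : ℤ) = a 0 + d * i := fun i hi ↦ by
    obtain ⟨b, hb, hb'⟩ := mem_image.1 (h _ (mem_image.2 ⟨i, mem_range.2 hi, rfl⟩))
    exact ⟨b, hb, by simpa using congrFun hb' 0⟩
  obtain ⟨a₀, -, ha₀⟩ := hmem 0 hk
  refine ⟨a₀, d, hd, fun i hi ↦ ?_⟩
  obtain ⟨b, hb, hb'⟩ := hmem i hi
  have : b = a₀ + i * d := by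
    zify
    rw [hb', ha₀]
    ring
  exact this ▸ hb

open scoped Classical in
theorem exists_progression_of_upperDensity (A : Set ℕ)
    (hA : 0 < limsup (fun N : ℕ ↦ (#((range N).filter (· ∈ A)) : ℝ) / N) atTop) (k : ℕ) :
    ∃ a d : ℕ, 0 < d ∧ ∀ i < k, a + i * d ∈ A := by
  set u : ℕ → ℝ := fun N ↦ (#((range N).filter (· ∈ A)) : ℝ) / N
  obtain ⟨δ, hδ, hlt⟩ := exists_between hA
  have hfreq : ∃ᶠ N in atTop, δ < u N :=
    frequently_lt_of_lt_limsup (IsCoboundedUnder.of_frequently_ge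
      (a := (0 : ℝ)) (Eventually.frequently (Eventually.of_forall fun N ↦ by positivity))) hlt
  obtain ⟨N₀, hN₀⟩ := exists_progression k hδ
  obtain ⟨N, hN, hu⟩ := frequently_atTop.1 hfreq (max N₀ 1)
  obtain ⟨a, d, hd, h⟩ := hN₀ N (le_of_max_le_left hN) ((range N).filter (· ∈ A))
    (filter_subset _ _) (by
      have hN0 : (0 : ℝ) < N := by
        exact_mod_cast lt_of_lt_of_le one_pos (le_of_max_le_right hN)
      rw [lt_div_iff₀ hN0] at hu
      exact hu.le)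
  exact ⟨a, d, hd, fun i hi ↦ (mem_filter.1 (h i hi)).2⟩

/-- Corners in every dimension. -/
theorem exists_corner (r : ℕ) {δ : ℝ} (hδ : 0 < δ) :
    ∃ N₀ : ℕ, ∀ N : ℕ, N₀ ≤ N → ∀ A : Finset (Fin r → ℤ),
      (∀ a ∈ A, ∀ i, 0 ≤ a i ∧ a i < N) → δ * (N : ℝ) ^ r ≤ #A →
      ∃ a ∈ A, ∃ d : ℕ, 0 < d ∧ ∀ i, a + Pi.single i (d : ℤ) ∈ A := by
  classical
  obtain ⟨N₀, hN₀⟩ := exists_homothetic_in_box r
    (insert 0 (univ.image fun i : Fin r ↦ Pi.single i 1)) hδ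
  refine ⟨N₀, fun N hN A hA hδA ↦ ?_⟩
  obtain ⟨a, d, hd, h⟩ := hN₀ N hN A hA hδA
  refine ⟨a, by simpa using h 0 (mem_insert_self _ _), d, hd, fun i ↦ ?_⟩
  convert h (Pi.single i 1) (mem_insert_of_mem (mem_image_of_mem _ (mem_univ i))) using 2
  rw [← Pi.single_smul]
  simp

/-- Dense subsets of high-dimensional affine space over a finite ring contain full lines. -/
theorem exists_affine_line (R : Type*) [CommRing R] [Nontrivial R] [Fintype R] {δ : ℝ}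
    (hδ : 0 < δ) : ∃ N : ℕ, ∀ n : ℕ, N ≤ n → ∀ A : Finset (Fin n → R),
      δ * (Fintype.card R : ℝ) ^ n ≤ #A →
      ∃ a v : Fin n → R, v ≠ 0 ∧ ∀ t : R, a + t • v ∈ A := by
  classical
  obtain ⟨N, hN⟩ := DensityHJ.exists_line_of_dense.{_, 0} R hδ
  refine ⟨N, fun n hn A hA ↦ ?_⟩
  obtain ⟨l, hl⟩ := hN (Fin n) (hn.trans_eq (Fintype.card_fin n).symm) (A : Set (Fin n → R)) (by
    rw [Fintype.card_fin, Set.ncard_coe_finset]
    exact hA)
  refine ⟨fun i ↦ (l.idxFun i).elim 0 id, fun i ↦ (l.idxFun i).elim 1 (fun _ ↦ 0), ?_, fun t ↦ ?_⟩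
  · intro h
    obtain ⟨i, hi⟩ := l.proper
    simpa [hi] using congrFun h i
  · convert Finset.mem_coe.1 (hl t) using 1
    funext i
    cases h : l.idxFun i <;> simp [h]

end FA.Szemeredi
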